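/-
Programme G1 (S48, Deligne–Serre), chapter DS/G1/IG1 (the Igusa twin for `Γ₁`), helper64.  Mathlib only.

**Group theory of the transvection trick.**  `R` a commutative ring, `upper b = (1 b; 0 1)`,
`lower c = (1 0; c 1)` in `SL(2, R)`.

* `conj_upper_of_zero` : if `h 0 0 = 0` then `h * upper b * h⁻¹ = lower (-(h 1 0)² b)`;
* `lower_mem_of_zero`  : a subgroup containing all `upper b` and one `h` with `h 0 0 = 0` contains all
  `lower c`;
* `mem_of_isUnit`      : a subgroup containing all `upper b`, `lower c` contains every `g` with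
  `g 0 0` a unit (`diag (a, a⁻¹) = w(a) w(-1)`, `w(a) = upper a * lower (-a⁻¹) * upper a`);
* `eq_top_of_stableRange` : if moreover for every `g` some `g 0 0 + t * g 1 0` is a unit, it is `⊤`;
* `exists_isUnit_add_mul` : `ZMod n` has this property (`n ≠ 0`);
* `eq_top_of_upper_of_zero` : **`H ≤ SL(2, ZMod n)`, all `upper b ∈ H`, some `h ∈ H` with `h 0 0 = 0`
  ⟹ `H = ⊤`.**
* `exists_zero_of_mul_eq_top` : if every `g` is `d * b` with `d ∈ D` and `b` upper triangular
  (`b 1 0 = 0`), then `D` contains an `h` with `h 0 0 = 0`.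
-/
import Mathlib

set_option autoImplicit false

open Matrix
open scoped MatrixGroups

namespace Fermat.Agent.DS.G1.IG1.SL2Gen64

variable {R : Type*} [CommRing R]

/-- `(1 b; 0 1)`. -/
def upper (b : R) : SL(2, R) := ⟨!![1, b; 0, 1], by simp [Matrix.det_fin_two_of]⟩

/-- `(1 0; c 1)`. -/
def lower (c : R) : SL(2, R) := ⟨!![1, 0; c, 1], by simp [Matrix.det_fin_two_of]⟩

@[simp] theorem upper_val (b : R) : (upper b : Matrix (Fin 2) (Fin 2) R) = !![1, b; 0, 1] := rfl
@[simp] theorem lower_val (c : R) : (lower c : Matrix (Fin 2) (Fin 2) R) = !![1, 0; c, 1] := rfl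

theorem sl_ext {g h : SL(2, R)} (h00 : g 0 0 = h 0 0) (h01 : g 0 1 = h 0 1)
    (h10 : g 1 0 = h 1 0) (h11 : g 1 1 = h 1 1) : g = h := by
  apply Subtype.ext
  ext i j
  fin_cases i <;> fin_cases j <;> assumption

theorem det_eq (g : SL(2, R)) : g 0 0 * g 1 1 - g 0 1 * g 1 0 = 1 := by
  have := g.det_coe
  rwa [Matrix.det_fin_two] at this

theorem inv_entries (g : SL(2, R)) :
    g⁻¹ 0 0 = g 1 1 ∧ g⁻¹ 0 1 = -g 0 1 ∧ g⁻¹ 1 0 = -g 1 0 ∧ g⁻¹ 1 1 = g 0 0 := by
  rw [Matrix.SpecialLinearGroup.SL2_inv_expl]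
  simp

theorem mul_entries (g h : SL(2, R)) :
    (g * h) 0 0 = g 0 0 * h 0 0 + g 0 1 * h 1 0 ∧ (g * h) 0 1 = g 0 0 * h 0 1 + g 0 1 * h 1 1 ∧
    (g * h) 1 0 = g 1 0 * h 0 0 + g 1 1 * h 1 0 ∧ (g * h) 1 1 = g 1 0 * h 0 1 + g 1 1 * h 1 1 := by
  simp [Matrix.SpecialLinearGroup.coe_mul, Matrix.mul_apply, Fin.sum_univ_two]

/-- conjugating the upper unipotent group by an `h` with `h 0 0 = 0` gives the lower one. -/
theorem conj_upper_of_zero (h : SL(2, R)) (h0 : h 0 0 = 0) (b : R) :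
    h * upper b * h⁻¹ = lower (-(h 1 0) ^ 2 * b) := by
  have hd := det_eq h
  rw [h0] at hd
  obtain ⟨i00, i01, i10, i11⟩ := inv_entries h
  obtain ⟨a00, a01, a10, a11⟩ := mul_entries h (upper b)
  obtain ⟨m00, m01, m10, m11⟩ := mul_entries (h * upper b) h⁻¹
  have u00 : (upper b) 0 0 = 1 := rfl
  have u01 : (upper b) 0 1 = b := rfl
  have u10 : (upper b) 1 0 = 0 := rfl
  have u11 : (upper b) 1 1 = 1 := rfl
  have l00 : (lower (-(h 1 0) ^ 2 * b)) 0 0 = 1 := rfl
  have l01 : (lower (-(h 1 0) ^ 2 * b)) 0 1 = 0 := rfl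
  have l10 : (lower (-(h 1 0) ^ 2 * b)) 1 0 = -(h 1 0) ^ 2 * b := rfl
  have l11 : (lower (-(h 1 0) ^ 2 * b)) 1 1 = 1 := rfl
  apply sl_ext
  · rw [m00, a00, a01, i00, i10, u00, u01, u10, u11, l00, h0]; linear_combination hd
  · rw [m01, a00, a01, i01, i11, u00, u01, u10, u11, l01, h0]; ring
  · rw [m10, a10, a11, i00, i10, u00, u01, u10, u11, l10]; ring
  · rw [m11, a10, a11, i01, i11, u00, u01, u10, u11, l11, h0]; linear_combination hd

/-- a subgroup containing the upper unipotent group and one `h` with `h 0 0 = 0` contains the lower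
unipotent group. -/
theorem lower_mem_of_zero (H : Subgroup SL(2, R)) (hU : ∀ b : R, upper b ∈ H)
    {h : SL(2, R)} (hH : h ∈ H) (h0 : h 0 0 = 0) (c : R) : lower c ∈ H := by
  have hd := det_eq h
  rw [h0] at hd
  have key : lower c = h * upper (-(h 0 1) ^ 2 * c) * h⁻¹ := by
    rw [conj_upper_of_zero h h0]
    congr 1
    have : (h 0 1 * h 1 0) ^ 2 = 1 := by
      have h1 : h 0 1 * h 1 0 = -1 := by linear_combination -hd
      rw [h1]; ring
    linear_combination (-c) * this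
  rw [key]
  exact H.mul_mem (H.mul_mem hH (hU _)) (H.inv_mem hH)

/-- the matrix identity behind `mem_of_isUnit`:
`g = lower (c a⁻¹) * w(a) * w(-1) * upper (a⁻¹ b)` with `w(a) = upper a * lower (-a⁻¹) * upper a`. -/
theorem key_matrix (a ai b c d : R) (hmul : a * ai = 1) (hd : a * d - b * c = 1) :
    !![a, b; c, d] = !![1, 0; c * ai, 1] * (!![1, a; 0, 1] * !![1, 0; -ai, 1] * !![1, a; 0, 1]) *
      (!![1, -1; 0, 1] * !![1, 0; 1, 1] * !![1, -1; 0, 1]) * !![1, ai * b; 0, 1] := by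
  simp only [Matrix.mul_fin_two]
  rw [← Matrix.ext_iff]
  simp only [Fin.forall_fin_two]
  simp
  refine ⟨⟨?_, ?_⟩, ?_, ?_⟩
  · linear_combination (-a) * hmul
  · linear_combination (a * ai * b - b - 1) * hmul
  · linear_combination (c * a * ai - c + 1) * hmul
  · linear_combination ai * hd + (-d + c * (a * ai - 1) * ai * b + ai * b - c * ai) * hmul

/-- a subgroup containing both unipotent groups contains every `g` whose upper left entry is a unit
(`diag (a, a⁻¹) = w(a) w(-1)`, `w(a) = upper a * lower (-a⁻¹) * upper a`). -/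
theorem mem_of_isUnit (H : Subgroup SL(2, R)) (hU : ∀ b : R, upper b ∈ H)
    (hL : ∀ c : R, lower c ∈ H) (g : SL(2, R)) (hg : IsUnit (g 0 0)) : g ∈ H := by
  obtain ⟨u, hu⟩ := hg
  have hmul : g 0 0 * ((u⁻¹ : Rˣ) : R) = 1 := by rw [← hu]; exact u.mul_inv
  have key : g = lower (g 1 0 * ((u⁻¹ : Rˣ) : R)) *
      (upper (g 0 0) * lower (-((u⁻¹ : Rˣ) : R)) * upper (g 0 0)) *
      (upper (-1) * lower 1 * upper (-1)) * upper (((u⁻¹ : Rˣ) : R) * g 0 1) := by
    apply Subtype.ext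
    simp only [Matrix.SpecialLinearGroup.coe_mul, upper_val, lower_val]
    rw [← key_matrix (g 0 0) ((u⁻¹ : Rˣ) : R) (g 0 1) (g 1 0) (g 1 1) hmul (det_eq g)]
    exact Matrix.eta_fin_two _
  rw [key]
  refine H.mul_mem (H.mul_mem (H.mul_mem (hL _) ?_) ?_) (hU _)
  · exact H.mul_mem (H.mul_mem (hU _) (hL _)) (hU _)
  · exact H.mul_mem (H.mul_mem (hU _) (hL _)) (hU _)

/-- if every first column can be made to start with a unit by an upper unipotent row operation, the
two unipotent groups generate `SL(2, R)`. -/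
theorem eq_top_of_stableRange (hR : ∀ g : SL(2, R), ∃ t : R, IsUnit (g 0 0 + t * g 1 0))
    (H : Subgroup SL(2, R)) (hU : ∀ b : R, upper b ∈ H) (hL : ∀ c : R, lower c ∈ H) : H = ⊤ := by
  rw [eq_top_iff]
  intro g _
  obtain ⟨t, ht⟩ := hR g
  have h1 : upper t * g ∈ H := by
    apply mem_of_isUnit H hU hL
    obtain ⟨m00, -, -, -⟩ := mul_entries (upper t) g
    rw [m00]
    have u00 : (upper t) 0 0 = 1 := rfl
    have u01 : (upper t) 0 1 = t := rfl
    rwa [u00, u01, one_mul]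
  have h2 : g = (upper t)⁻¹ * (upper t * g) := by group
  rw [h2]
  exact H.mul_mem (H.inv_mem (hU t)) h1

/-- **`ZMod n` has stable range one** (for unimodular pairs): if `(a, c)` is unimodular then some
`a + t c` is a unit. -/
theorem exists_isUnit_add_mul {n : ℕ} [NeZero n] (a c : ZMod n)
    (h : ∃ u v : ZMod n, u * a + v * c = 1) : ∃ t : ZMod n, IsUnit (a + t * c) := by
  obtain ⟨u, v, huv⟩ := h
  set x : ℕ := a.val with hx
  set y : ℕ := c.val with hy
  let ps : Finset ℕ := {p ∈ n.primeFactors | ¬ p ∣ x}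
  set t : ℕ := ps.prod id with ht
  have hcop : (x + t * y).Coprime n := by
    apply Nat.coprime_of_dvd
    intro p pp hp hpn
    by_cases hpx : p ∣ x
    · have h1 : p ∣ t * y := (Nat.dvd_add_right hpx).mp hp
      rcases pp.dvd_mul.mp h1 with h2 | h2
      · obtain ⟨q, hq, hq'⟩ := (pp.prime.dvd_finsetProd_iff id).mp h2
        rw [Finset.mem_filter, Nat.mem_primeFactors] at hq
        have hqp : p = q := (Nat.prime_dvd_prime_iff_eq pp hq.1.1).mp hq'
        exact hq.2 (hqp ▸ hpx)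
      · -- `p ∣ x`, `p ∣ y`, `p ∣ n`: reduce the unimodularity relation mod `p`
        have : Fact p.Prime := ⟨pp⟩
        have ha0 : ZMod.castHom hpn (ZMod p) a = 0 := by
          rw [← ZMod.natCast_zmod_val a, map_natCast]
          exact (ZMod.natCast_eq_zero_iff _ _).mpr hpx
        have hc0 : ZMod.castHom hpn (ZMod p) c = 0 := by
          rw [← ZMod.natCast_zmod_val c, map_natCast]
          exact (ZMod.natCast_eq_zero_iff _ _).mpr h2
        have := congrArg (ZMod.castHom hpn (ZMod p)) huv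
        rw [map_add, map_mul, map_mul, ha0, hc0, mul_zero, mul_zero, add_zero, map_one] at this
        exact zero_ne_one this
    · have pps : p ∈ ps :=
        Finset.mem_filter.mpr ⟨Nat.mem_primeFactors.mpr ⟨pp, hpn, NeZero.ne n⟩, hpx⟩
      have h1 : p ∣ t * y := (Finset.dvd_prod_of_mem id pps).mul_right y
      exact hpx ((Nat.dvd_add_left h1).mp hp)
  refine ⟨(t : ZMod n), ?_⟩
  have hcast : ((x + t * y : ℕ) : ZMod n) = a + (t : ZMod n) * c := by
    push_cast
    rw [hx, hy, ZMod.natCast_zmod_val, ZMod.natCast_zmod_val]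
  rw [← hcast]
  exact (ZMod.isUnit_iff_coprime _ _).mpr hcop

/-- the stable range hypothesis of `eq_top_of_stableRange` for `SL(2, ZMod n)`. -/
theorem stableRange_zmod {n : ℕ} [NeZero n] (g : SL(2, ZMod n)) :
    ∃ t : ZMod n, IsUnit (g 0 0 + t * g 1 0) :=
  exists_isUnit_add_mul _ _ ⟨g 1 1, -g 0 1, by linear_combination det_eq g⟩

/-- **Transvection trick, group theory.**  A subgroup of `SL(2, ZMod n)` containing the upper
unipotent group and one element `h` with `h 0 0 = 0` is everything. -/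
theorem eq_top_of_upper_of_zero {n : ℕ} [NeZero n] (H : Subgroup SL(2, ZMod n))
    (hU : ∀ b : ZMod n, upper b ∈ H) {h : SL(2, ZMod n)} (hH : h ∈ H) (h0 : h 0 0 = 0) : H = ⊤ :=
  eq_top_of_stableRange stableRange_zmod H hU (lower_mem_of_zero H hU hH h0)

/-- if `D * B = SL(2, R)` for the upper triangular group `B`, then `D` contains an element with
vanishing upper left entry. -/
theorem exists_zero_of_mul_eq_top (D : Subgroup SL(2, R))
    (hDB : ∀ g : SL(2, R), ∃ d ∈ D, ∃ b : SL(2, R), b 1 0 = 0 ∧ g = d * b) :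
    ∃ h ∈ D, h 0 0 = 0 := by
  let w : SL(2, R) := ⟨!![0, -1; 1, 0], by simp [Matrix.det_fin_two_of]⟩
  obtain ⟨d, hd, b, hb, hw⟩ := hDB w
  refine ⟨d, hd, ?_⟩
  have hd' : d = w * b⁻¹ := by rw [hw]; group
  obtain ⟨m00, -, -, -⟩ := mul_entries w b⁻¹
  obtain ⟨-, -, i10, -⟩ := inv_entries b
  have w00 : w 0 0 = 0 := rfl
  rw [hd', m00, i10, hb, w00]
  ring

/-- **Transvection trick, final form.**  A subgroup `D` of `SL(2, ZMod n)` which contains the upper
unipotent group and satisfies `D * B = SL(2, ZMod n)` (`B` the upper triangular group) is everything. -/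
theorem eq_top_of_upper_of_mul {n : ℕ} [NeZero n] (D : Subgroup SL(2, ZMod n))
    (hU : ∀ b : ZMod n, upper b ∈ D)
    (hDB : ∀ g : SL(2, ZMod n), ∃ d ∈ D, ∃ b : SL(2, ZMod n), b 1 0 = 0 ∧ g = d * b) : D = ⊤ := by
  obtain ⟨h, hD, h0⟩ := exists_zero_of_mul_eq_top D hDB
  exact eq_top_of_upper_of_zero D hU hD h0

end Fermat.Agent.DS.G1.IG1.SL2Gen64
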